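import Fermat.Agent.MAZ.Top
import Fermat.Agent.MAZ.Val.Zero
import Fermat.Agent.S54.Frobenius

/-!
# MAZ / Main : Mazur's theorem on the types of a rational point of `X₀(N)`; S15 from (FIN)
-/

set_option autoImplicit false

open AlgebraicCurve ModularCurve

namespace Fermat.Agent.MAZ

open Fermat.Agent.S24 Fermat.Agent.MAZ.Dict Fermat.Agent.MAZ.Red Fermat.Agent.MAZ.Ell
open Fermat.Agent.MAZ.Val

noncomputable section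

variable (N : ℕ) [NeZero N]

/-- `x` of type `0` at primes above `2` and `3` : `x` is not of type `∞` at `A ∣ ℓ`, `ℓ ∤ N (N-1)`. -/
theorem core_zero (hN : N.Prime) (hN' : N ∉ ({2, 3, 5, 7, 13} : Finset ℕ))
    (hfin : ∀ r : ℕ, r.Prime → r ∣ N - 1 → FinMain N r {2, 3, r, N})
    {x : Place Kb (FN N)} {j₀ u₀ : Kb} (hj₀ : j₀ ≠ 0) (hu₀ : u₀ ≠ 0)
    (hxj : 0 < x.ord (jF N - algebraMap Kb (FN N) j₀))
    (hxu : 0 < x.ord (uF N hN - algebraMap Kb (FN N) u₀))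
    (hσj : ∀ σ : Kb ≃ₐ[ℚ] Kb, σ j₀ = j₀) (hσu : ∀ σ : Kb ≃ₐ[ℚ] Kb, σ u₀ = u₀)
    {A₂ A₃ A : ValuationSubring Kb} (hA₂ : A₂.LiesOverPrime 2) (hA₃ : A₃.LiesOverPrime 3)
    {ℓ : ℕ} (hℓ : ℓ.Prime) (hℓN : ℓ ≠ N) (hℓN1 : ¬ ℓ ∣ N - 1) (hA : A.LiesOverPrime ℓ)
    (h2u : A₂.valuation u₀ < 1) (h2w : A₂.valuation (j₀ * u₀)⁻¹ < 1)
    (h3u : A₃.valuation u₀ < 1) (h3w : A₃.valuation (j₀ * u₀)⁻¹ < 1)
    (hlj : A.valuation j₀⁻¹ < 1) (hlu : A.valuation u₀⁻¹ < 1) : False := by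
  simp only [Finset.mem_insert, Finset.mem_singleton, not_or] at hN'
  have hN'' : N ∉ ({2, 3, 5, 7, 13} : Finset ℕ) := by
    simp only [Finset.mem_insert, Finset.mem_singleton, not_or]; exact hN'
  have hℓN' : ¬ ℓ ∣ N := fun h => hℓN ((Nat.prime_dvd_prime_iff_eq hℓ hN).mp h)
  have h2N : ¬ 2 ∣ N := fun h => hN'.1 ((Nat.prime_dvd_prime_iff_eq Nat.prime_two hN).mp h).symm
  have h3N : ¬ 3 ∣ N :=
    fun h => hN'.2.1 ((Nat.prime_dvd_prime_iff_eq Nat.prime_three hN).mp h).symm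
  have : Fact ℓ.Prime := ⟨hℓ⟩
  have : Fact (Nat.Prime 2) := ⟨Nat.prime_two⟩
  have : Fact (Nat.Prime 3) := ⟨Nat.prime_three⟩
  exact core_abs N hN hfin hN'.1 hN'.2.1 (a := P0 N hN) (b := Pinf N) (x := x) (smul_P0 N hN)
    (smul_Pinf N)
    (fun σ => smul_place_eq N hℓN' A hA hN hj₀ hu₀ hxj hxu hlj hlu σ (hσj σ) (hσu σ))
    (cuspClass_ne_zero N hN hN'') (nsmul_cuspClass N hN) hA₂ hA₃ hℓ hℓN hℓN1 hA
    (redJ_ptSub_P0 N h2N A₂ hA₂ hN hj₀ hu₀ hxj hxu h2u h2w)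
    (redJ_ptSub_P0 N h3N A₃ hA₃ hN hj₀ hu₀ hxj hxu h3u h3w)
    (redJ_ptSub_Pinf N hℓN' A hA hN hj₀ hu₀ hxj hxu hlj hlu)

/-- `x` of type `∞` at primes above `2` and `3` : `x` is not of type `0` at `A ∣ ℓ`, `ℓ ∤ N (N-1)`. -/
theorem core_inf (hN : N.Prime) (hN' : N ∉ ({2, 3, 5, 7, 13} : Finset ℕ))
    (hfin : ∀ r : ℕ, r.Prime → r ∣ N - 1 → FinMain N r {2, 3, r, N})
    {x : Place Kb (FN N)} {j₀ u₀ : Kb} (hj₀ : j₀ ≠ 0) (hu₀ : u₀ ≠ 0)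
    (hxj : 0 < x.ord (jF N - algebraMap Kb (FN N) j₀))
    (hxu : 0 < x.ord (uF N hN - algebraMap Kb (FN N) u₀))
    (hσj : ∀ σ : Kb ≃ₐ[ℚ] Kb, σ j₀ = j₀) (hσu : ∀ σ : Kb ≃ₐ[ℚ] Kb, σ u₀ = u₀)
    {A₂ A₃ A : ValuationSubring Kb} (hA₂ : A₂.LiesOverPrime 2) (hA₃ : A₃.LiesOverPrime 3)
    {ℓ : ℕ} (hℓ : ℓ.Prime) (hℓN : ℓ ≠ N) (hℓN1 : ¬ ℓ ∣ N - 1) (hA : A.LiesOverPrime ℓ)
    (h2j : A₂.valuation j₀⁻¹ < 1) (h2u : A₂.valuation u₀⁻¹ < 1)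
    (h3j : A₃.valuation j₀⁻¹ < 1) (h3u : A₃.valuation u₀⁻¹ < 1)
    (hlu : A.valuation u₀ < 1) (hlw : A.valuation (j₀ * u₀)⁻¹ < 1) : False := by
  simp only [Finset.mem_insert, Finset.mem_singleton, not_or] at hN'
  have hN'' : N ∉ ({2, 3, 5, 7, 13} : Finset ℕ) := by
    simp only [Finset.mem_insert, Finset.mem_singleton, not_or]; exact hN'
  have hℓN' : ¬ ℓ ∣ N := fun h => hℓN ((Nat.prime_dvd_prime_iff_eq hℓ hN).mp h)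
  have h2N : ¬ 2 ∣ N := fun h => hN'.1 ((Nat.prime_dvd_prime_iff_eq Nat.prime_two hN).mp h).symm
  have h3N : ¬ 3 ∣ N :=
    fun h => hN'.2.1 ((Nat.prime_dvd_prime_iff_eq Nat.prime_three hN).mp h).symm
  have : Fact ℓ.Prime := ⟨hℓ⟩
  have : Fact (Nat.Prime 2) := ⟨Nat.prime_two⟩
  have : Fact (Nat.Prime 3) := ⟨Nat.prime_three⟩
  have hneg : ptSub N (Pinf N) (P0 N hN) = - cuspClass N hN := by
    have h := ptSub_add N (Pinf N) (P0 N hN) (Pinf N)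
    rw [ptSub_self] at h
    exact eq_neg_of_add_eq_zero_left h
  exact core_abs N hN hfin hN'.1 hN'.2.1 (a := Pinf N) (b := P0 N hN) (x := x) (smul_Pinf N)
    (smul_P0 N hN)
    (fun σ => smul_place_eq N h2N A₂ hA₂ hN hj₀ hu₀ hxj hxu h2j h2u σ (hσj σ) (hσu σ))
    (by rw [hneg]; exact neg_ne_zero.mpr (cuspClass_ne_zero N hN hN''))
    (by rw [hneg, neg_nsmul, nsmul_cuspClass, neg_zero]) hA₂ hA₃ hℓ hℓN hℓN1 hA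
    (redJ_ptSub_Pinf N h2N A₂ hA₂ hN hj₀ hu₀ hxj hxu h2j h2u)
    (redJ_ptSub_Pinf N h3N A₃ hA₃ hN hj₀ hu₀ hxj hxu h3j h3u)
    (redJ_ptSub_P0 N hℓN' A hA hN hj₀ hu₀ hxj hxu hlu hlw)

end

open WeierstrassCurve WeierstrassCurve.Affine

theorem lam_ne_zero {F : Type*} [Field F] [CharZero F] [DecidableEq F] (ι : F →+* ℂ)
    (W : WeierstrassCurve.Affine F) (N : ℕ) [NeZero N] (hN : N.Prime) (h2 : N ≠ 2)
    (Q : W.Point) (hQ : addOrderOf Q = N) (hc₄ : W.c₄ ≠ 0) (hc₆ : W.c₆ ≠ 0) (hΔ : W.Δ ≠ 0) :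
    lam W N Q ≠ 0 := by
  obtain ⟨τ, -, h3⟩ := exists_tau_of_point ι W N hN h2 Q hQ hc₄ hc₆ hΔ
  intro h
  rw [h, map_zero] at h3
  exact div_ne_zero (ModularForm.discriminant_ne_zero τ) (ModularForm.discriminant_ne_zero _) h3

/-- **S15 from (FIN)**. -/
theorem s15_of_fin
    {p : ℕ} (hp : p.Prime) (hp' : p ∉ ({2, 3, 5, 7, 13} : Finset ℕ))
    (hfin : haveI : NeZero p := ⟨hp.ne_zero⟩
      ∀ r : ℕ, r.Prime → r ∣ p - 1 → FinMain p r {2, 3, r, p})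
    (W : WeierstrassCurve ℤ) (hΔ : W.Δ ≠ 0)
    (Q : ((W.map (Int.castRingHom ℚ))⁄(AlgebraicClosure ℚ)).Point)
    (hQfix : ∀ σ : AlgebraicClosure ℚ ≃ₐ[ℚ] AlgebraicClosure ℚ, σ • Q = Q)
    (hQord : addOrderOf Q = p)
    (h2Δ : (2 : ℤ) ∣ W.Δ) (h2c₄ : ¬ (2 : ℤ) ∣ W.c₄)
    (h2 : ∀ A : ValuationSubring (AlgebraicClosure ℚ), A.LiesOverPrime 2 → ¬ W.InZeroComponentAt A Q)
    (h3Δ : (3 : ℤ) ∣ W.Δ) (h3c₄ : ¬ (3 : ℤ) ∣ W.c₄)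
    (h3 : ∀ A : ValuationSubring (AlgebraicClosure ℚ), A.LiesOverPrime 3 → ¬ W.InZeroComponentAt A Q)
    {ℓ : ℕ} (hℓ : ℓ.Prime) (hℓp : ℓ ≠ p) (hℓΔ : (ℓ : ℤ) ∣ W.Δ) (hℓc₄ : ¬ (ℓ : ℤ) ∣ W.c₄)
    (A : ValuationSubring (AlgebraicClosure ℚ)) (hA : A.LiesOverPrime ℓ) :
    ¬ W.InZeroComponentAt A Q := by
  intro hin
  have : NeZero p := ⟨hp.ne_zero⟩
  have hp'' := hp'
  simp only [Finset.mem_insert, Finset.mem_singleton, not_or] at hp''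
  obtain ⟨hc₄, hc₆⟩ := c₄_c₆_ne_zero W hℓ hℓΔ hℓc₄
  have hEc₄ : ((W.map (Int.castRingHom ℚ))⁄(AlgebraicClosure ℚ)).c₄ ≠ 0 := by
    have : ((W.map (Int.castRingHom ℚ))⁄(AlgebraicClosure ℚ)).c₄ = ((W.c₄ : ℤ) : AlgebraicClosure ℚ) := by
      simp [WeierstrassCurve.baseChange, WeierstrassCurve.map_c₄]
    rw [this]; exact_mod_cast hc₄
  have hEc₆ : ((W.map (Int.castRingHom ℚ))⁄(AlgebraicClosure ℚ)).c₆ ≠ 0 := by
    have : ((W.map (Int.castRingHom ℚ))⁄(AlgebraicClosure ℚ)).c₆ = ((W.c₆ : ℤ) : AlgebraicClosure ℚ) := by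
      simp [WeierstrassCurve.baseChange, WeierstrassCurve.map_c₆]
    rw [this]; exact_mod_cast hc₆
  have hEΔ : ((W.map (Int.castRingHom ℚ))⁄(AlgebraicClosure ℚ)).Δ ≠ 0 := by
    have : ((W.map (Int.castRingHom ℚ))⁄(AlgebraicClosure ℚ)).Δ = ((W.Δ : ℤ) : AlgebraicClosure ℚ) := by
      simp [WeierstrassCurve.baseChange, WeierstrassCurve.map_Δ]
    rw [this]; exact_mod_cast hΔ
  obtain ⟨x, hxj, hxu⟩ := exists_place_of_point p hp hp''.1 _ Q hQord hEc₄ hEc₆ hEΔ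
  rw [← jE_eq] at hxj
  have hj₀ : jE W ≠ 0 := by
    rw [jE_eq]; exact div_ne_zero (pow_ne_zero _ hEc₄) hEΔ
  have hu₀ : lam _ p Q ≠ 0 :=
    lam_ne_zero iotaK.toRingHom _ p hp hp''.1 Q hQord hEc₄ hEc₆ hEΔ
  obtain ⟨A₂, hA₂⟩ := Fermat.Agent.S54.exists_liesOverPrime Nat.prime_two
  obtain ⟨A₃, hA₃⟩ := Fermat.Agent.S54.exists_liesOverPrime Nat.prime_three
  have t2 := val_of_not_inZero W hΔ hp hp''.1 Nat.prime_two (Ne.symm hp''.1) (by exact_mod_cast h2Δ)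
    (by exact_mod_cast h2c₄) A₂ hA₂ Q hQord (h2 A₂ hA₂)
  have t3 := val_of_not_inZero W hΔ hp hp''.1 Nat.prime_three (Ne.symm hp''.2.1)
    (by exact_mod_cast h3Δ) (by exact_mod_cast h3c₄) A₃ hA₃ Q hQord (h3 A₃ hA₃)
  have tl := val_of_inZero W hΔ hp hp''.1 hℓ hℓp hℓΔ hℓc₄ A hA Q hQord hin
  have tj := val_jE_inv W hΔ hℓ hℓΔ hℓc₄ A hA
  have hbound := two_mul_ge_of_inZero W hΔ hp hp''.1 hℓ hℓp hℓΔ hℓc₄ A hA Q hQord hQfix hin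
  have hℓp1 : ¬ ℓ ∣ p - 1 := by
    rintro ⟨t, ht⟩
    have hp2 := hp.two_le
    have ht0 : t ≠ 0 := by rintro rfl; omega
    have ht1 : t = 1 := by
      by_contra h
      have : 2 ≤ t := by omega
      have : ℓ * 2 ≤ ℓ * t := Nat.mul_le_mul_left ℓ this
      omega
    subst ht1
    rcases hp.eq_two_or_odd with h | h
    · exact hp''.1 h
    · have hℓ2 : ℓ = 2 := by
        rcases hℓ.eq_two_or_odd with h' | h'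
        · exact h'
        · omega
      omega
  exact core_zero p hp hp' hfin hj₀ hu₀ hxj hxu (jE_fixed W) (lam_fixed W Q hQfix) hA₂ hA₃ hℓ hℓp
    hℓp1 hA t2.1 t2.2 t3.1 t3.2 tj tl

end Fermat.Agent.MAZ
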