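import Fermat.Agent.MAZ.Red.Mod
import Fermat.Agent.MAZ.Geo.Heq
import Fermat.Agent.MAZ.Abs.End
import Fermat.Agent.S17.Final

/-!
# MAZ / Top : the core of Mazur's argument on `X₀(N)`

`FinMain N r T` = the output of (FIN) (helper77, helper84).

`core_abs` : `a, b` two rational points of `X₀(N)` with `[a - b] ≠ 0` killed by `N - 1`; a rational point `x` which reduces to `a` at a prime above `2` and
at a prime above `3` cannot reduce to `b` at a prime above `ℓ ∤ N (N - 1)`.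
-/

set_option autoImplicit false

open AlgebraicCurve ModularCurve

namespace Fermat.Agent.MAZ

open Fermat.Agent.S24 Fermat.Agent.MAZ.Dict
open Fermat.Agent.RED (aux)

noncomputable section

/-- the output of (FIN). -/
def FinMain (N r : ℕ) [NeZero N] (T : Finset ℕ) : Prop :=
  ∃ c0 : ℕ, ∀ k : ℕ, c0 ≤ k → ∀ y : JZero N, IsRat y → ∃ ε : AddMonoid.End (JZero N),
    (∀ S : AddSubgroup (JZero N),
      (∀ m : Nat.Primes, (m : ℕ) ∉ T → ¬ (m : ℕ) ∣ N → ∀ x ∈ S, heckeOperatorBar N m x ∈ S) →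
        ∀ x ∈ S, ε x ∈ S) ∧
    (∀ c : JZero N, (∀ m : Nat.Primes, (m : ℕ) ∉ T → ¬ (m : ℕ) ∣ N →
      heckeOperatorBar N m c = (1 + (m : ℕ)) • c) → ε c = c) ∧
    ∃ p t : JZero N, IsRat p ∧ IsRat t ∧ r ^ c0 • t = 0 ∧ ε y = t + r ^ (k - c0) • p

variable (N : ℕ) [NeZero N]

theorem ptSub_self (x : Place Kb (FN N)) : ptSub N x x = 0 := by
  have h := ptSub_add N x x x
  exact left_eq_add.mp h.symm

theorem isRat_ptSub {x y : Place Kb (FN N)}
    (hx : ∀ σ : Kb ≃ₐ[ℚ] Kb, arithmeticGalois (modularFunctionFieldFull N) σ • x = x)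
    (hy : ∀ σ : Kb ≃ₐ[ℚ] Kb, arithmeticGalois (modularFunctionFieldFull N) σ • y = y) :
    IsRat (ptSub N x y) := fun σ => by
  rw [smul_ptSub, hx, hy]

omit [NeZero N] in
theorem not_dvd_mul_aux_of_notMem {m r ℓ : ℕ} (hm : m.Prime) (hN : N.Prime)
    (h : m ∉ ({2, 3, r, N} : Finset ℕ)) : ¬ m ∣ N * aux ℓ := by
  simp only [Finset.mem_insert, Finset.mem_singleton, not_or] at h
  intro hd
  rcases (Nat.Prime.dvd_mul hm).mp hd with h1 | h1
  · exact h.2.2.2 ((Nat.prime_dvd_prime_iff_eq hm hN).mp h1)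
  · rcases Fermat.Agent.RED.aux_eq ℓ with h2 | h2
    · rw [h2] at h1
      have : m ∣ 2 ^ 2 := by simpa using h1
      exact h.1 ((Nat.prime_dvd_prime_iff_eq hm Nat.prime_two).mp (hm.dvd_of_dvd_pow this))
    · rw [h2] at h1
      have : m ∣ 3 ^ 2 := by simpa using h1
      exact h.2.1 ((Nat.prime_dvd_prime_iff_eq hm Nat.prime_three).mp (hm.dvd_of_dvd_pow this))

/-- the kernel of `redJ` is stable under `heckeAway N {2,3,r,N}`. -/
theorem redJ_heckeAway {r ℓ : ℕ} (hN : N.Prime) (hℓ : ℓ.Prime) (hℓN : ¬ ℓ ∣ N)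
    (A : ValuationSubring Kb) (hA : A.LiesOverPrime ℓ) {ε : Module.End ℤ (JZero N)}
    (hε : ε ∈ heckeAway N {2, 3, r, N}) (x : JZero N) (hx : redJ N ℓ A x = 0) :
    redJ N ℓ A (ε x) = 0 := by
  have := heckeAway_mem hε (redJ N ℓ A).ker (fun m hm x hx =>
    redJ_hecke hℓ hℓN A hA m (not_dvd_mul_aux_of_notMem N m.2 hN hm) x hx) x hx
  exact this

/-- **the core**. -/
theorem core_abs (hN : N.Prime) (hfin : ∀ r : ℕ, r.Prime → r ∣ N - 1 → FinMain N r {2, 3, r, N})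
    (hN2 : N ≠ 2) (hN3 : N ≠ 3) {a b x : Place Kb (FN N)}
    (ha : ∀ σ : Kb ≃ₐ[ℚ] Kb, arithmeticGalois (modularFunctionFieldFull N) σ • a = a)
    (hb : ∀ σ : Kb ≃ₐ[ℚ] Kb, arithmeticGalois (modularFunctionFieldFull N) σ • b = b)
    (hx : ∀ σ : Kb ≃ₐ[ℚ] Kb, arithmeticGalois (modularFunctionFieldFull N) σ • x = x)
    (hab : ptSub N a b ≠ 0) (htors : (N - 1) • ptSub N a b = 0)
    {A₂ A₃ A : ValuationSubring Kb} (hA₂ : A₂.LiesOverPrime 2) (hA₃ : A₃.LiesOverPrime 3)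
    {ℓ : ℕ} (hℓ : ℓ.Prime) (hℓN : ℓ ≠ N) (hℓN1 : ¬ ℓ ∣ N - 1) (hA : A.LiesOverPrime ℓ)
    (h2 : redJ N 2 A₂ (ptSub N x a) = 0) (h3 : redJ N 3 A₃ (ptSub N x a) = 0)
    (hl : redJ N ℓ A (ptSub N x b) = 0) : False := by
  set κ := ptSub N a b with hκ
  have hN1 : N - 1 ≠ 0 := by have := hN.two_le; omega
  -- the order of `κ`
  set n := addOrderOf κ with hn
  have hnd : n ∣ N - 1 := addOrderOf_dvd_of_nsmul_eq_zero htors
  have hn0 : n ≠ 0 := fun h => hN1 (Nat.eq_zero_of_zero_dvd (h ▸ hnd))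
  have hn1 : n ≠ 1 := fun h => hab (AddMonoid.addOrderOf_eq_one_iff.mp h)
  set r := n.minFac with hr
  have hrp : r.Prime := Nat.minFac_prime hn1
  have hrn : r ∣ n := Nat.minFac_dvd n
  have hrN1 : r ∣ N - 1 := hrn.trans hnd
  obtain ⟨e, m', hm', hnm⟩ := Nat.exists_eq_pow_mul_and_not_dvd hn0 r hrp.ne_one
  set cr := m' • κ with hcr
  have hcr0 : cr ≠ 0 := by
    intro h
    have h1 : n ∣ m' := addOrderOf_dvd_of_nsmul_eq_zero h
    exact hm' (hrn.trans h1)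
  have hcrt : r ^ e • cr = 0 := by
    rw [hcr, smul_smul, ← hnm]
    exact addOrderOf_nsmul_eq_zero κ
  have hκrat : IsRat κ := isRat_ptSub N ha hb
  have hcrrat : IsRat cr := hκrat.nsmul m'
  set y := m' • ptSub N x a with hy
  have hyrat : IsRat y := (isRat_ptSub N hx ha).nsmul m'
  have hycr : y + cr = m' • ptSub N x b := by
    rw [hy, hcr, hκ, ← nsmul_add, ptSub_add]
  have hrℓ : r ≠ ℓ := fun h => hℓN1 (h ▸ hrN1)
  have hrN : r ≠ N := by
    intro h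
    have := Nat.le_of_dvd (Nat.pos_of_ne_zero hN1) hrN1
    have := hN.two_le
    omega
  have hℓN' : ¬ ℓ ∣ N := fun h => hℓN ((Nat.prime_dvd_prime_iff_eq hℓ hN).mp h)
  have h2N : ¬ 2 ∣ N := fun h => hN2 ((Nat.prime_dvd_prime_iff_eq Nat.prime_two hN).mp h).symm
  have h3N : ¬ 3 ∣ N := fun h => hN3 ((Nat.prime_dvd_prime_iff_eq Nat.prime_three hN).mp h).symm
  have hfg : (FixedPoints.addSubgroup (Kb ≃ₐ[ℚ] Kb) (JZero N)).FG :=
    (AddGroup.fg_iff_addSubgroup_fg _).1 (Fermat.Agent.S17.mordellWeil N)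
  have hmemQ : ∀ z : JZero N, IsRat z → z ∈ FixedPoints.addSubgroup (Kb ≃ₐ[ℚ] Kb) (JZero N) :=
    fun z hz => hz
  have hinj : ∀ {q : ℕ} (hq : q.Prime) (hqN : ¬ q ∣ N) (hqr : r ≠ q) (B : ValuationSubring Kb)
      (hB : B.LiesOverPrime q) (t : JZero N), (∃ n : ℕ, r ^ n • t = 0) → redJ N q B t = 0 →
      t = 0 := by
    intro q hq hqN hqr B hB t ⟨n, hn⟩ h0
    refine redJ_eq_zero_of_torsion hq hqN B hB (n := r ^ n) ?_ hn h0
    intro h
    exact hqr ((Nat.prime_dvd_prime_iff_eq hq hrp).mp (hq.dvd_of_dvd_pow h)).symm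
  obtain ⟨c0, hc0⟩ := hfin r hrp hrN1
  -- the Eisenstein property of `cr`
  have heis : ∀ m : Nat.Primes, (m : ℕ) ∉ ({2, 3, r, N} : Finset ℕ) → ¬ (m : ℕ) ∣ N →
      heckeOperatorBar N m cr = (1 + (m : ℕ)) • cr := by
    intro m hm hmN
    simp only [Finset.mem_insert, Finset.mem_singleton, not_or] at hm
    exact hecke_of_rational_torsion N m.2 hmN
      (fun h => hm.2.2.1 ((Nat.prime_dvd_prime_iff_eq m.2 hrp).mp h)) cr hcrrat e hcrt
  -- the general step with a prime `q ∈ {2, 3}` different from `r`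
  have main : ∀ {q : ℕ} (hq : q.Prime) (hqN : ¬ q ∣ N) (hqr : r ≠ q) (B : ValuationSubring Kb)
      (hB : B.LiesOverPrime q), redJ N q B (ptSub N x a) = 0 → False := by
    intro q hq hqN hqr B hB hqx
    refine hcr0 (endgame hfg hrp (redJ N q B) (redJ N ℓ A) (hinj hq hqN hqr B hB)
      (hinj hℓ hℓN' hrℓ A hA) c0 y cr ⟨e, hcrt⟩ ?_ ?_ ?_)
    · rw [hy, map_nsmul, hqx, smul_zero]
    · rw [hycr, map_nsmul, hl, smul_zero]
    · intro k hk
      obtain ⟨ε, hε, hεc, p, t, hp, ht, htc, hεy⟩ := hc0 k hk y hyrat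
      exact ⟨ε, fun z hz => hε (redJ N q B).ker (fun m hm _ x hx =>
          redJ_hecke hq hqN B hB m (not_dvd_mul_aux_of_notMem N m.2 hN hm) x hx) z hz,
        fun z hz => hε (redJ N ℓ A).ker (fun m hm _ x hx =>
          redJ_hecke hℓ hℓN' A hA m (not_dvd_mul_aux_of_notMem N m.2 hN hm) x hx) z hz,
        hεc cr heis, p, hmemQ p hp, t, hmemQ t ht, htc, hεy⟩
  by_cases hr2 : r = 2
  · exact main Nat.prime_three h3N (by omega) A₃ hA₃ h3
  · exact main Nat.prime_two h2N hr2 A₂ hA₂ h2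

end

end Fermat.Agent.MAZ
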